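import Fermat.Agent.S48.G1.K1Gen.Prime
import Fermat.Agent.S18.K1Top
import Fermat.Agent.S18.PlaceUp
import Fermat.Agent.S30.GaussDescent

/-!
# S48 / G1, AREA K (helper46): `(K1)` over `ℚ̄` from the number-field statement, GENERIC field

`F₀` an arbitrary intermediate field of `ℚ((q)) / ℚ` (for G1: `F1Q M`, or an auxiliary compositum
for residue characteristic `2`, `3`).  Generic twins of `S18.K1Defs.K1Modular`,
`S18.K1Top.fun_form_of_inputs` and `S30.E4.K1Bridge`:

* `K1ModularG F₀ A p` : `K1E (OE A E) E (laurentBaseChange E F₀) p` over every number field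
  `E ⊆ ℚ̄` containing a fixed finite set;
* `funAtG_of_k1ModularG` : `K1ModularG F₀ A p → FunAtG F₀ A p`
  (the three descent inputs are the generic `GaussDescent.exists_descent`,
  `PlaceUp.exists_place_up'`, `GaussDescent.isDiscreteValuationRing_OE`);
* `k1Ord_of_k1ModularG` : with Gauss normalisation (`ExitD.HasGaussNorm`), the landed exit shape
  `ExitD.K1Ord F₀ ℓ A` from `K1ModularG F₀ A p` at all primes `p ≠ ℓ`.

For `F₀ = modularFunctionFieldFull N` the statement `K1ModularG` is `S18.K1Defs.K1Modular N A p`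
(`k1ModularG_full_iff`).
-/

set_option autoImplicit false
set_option linter.unusedSectionVars false
set_option synthInstance.maxHeartbeats 400000
set_option maxHeartbeats 1000000

noncomputable section

namespace Fermat.Agent.S48.G1.K1Gen

open ModularCurve AlgebraicCurve HahnSeries IntermediateField
open Fermat.Agent.S18.K1Defs Fermat.Agent.S18.K1Top Fermat.Agent.S18.Wiring
open Fermat.Agent.S30

local notation "Qb" => AlgebraicClosure ℚ

variable (F₀ : IntermediateField ℚ (LaurentSeries ℚ)) (A : ValuationSubring Qb)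

/-- **`(K1)` over all sufficiently large number fields**, for the field `F₀ ⊆ ℚ((q))`, the
valuation ring `A` of `ℚ̄` and the exponent `p`. -/
def K1ModularG (p : ℕ) : Prop :=
  ∃ S : Finset Qb,
    ∀ (E : IntermediateField ℚ Qb) [FiniteDimensional ℚ E]
      [IsDiscreteValuationRing (OE A E)],
      (∀ s ∈ S, s ∈ E) → K1E (OE A E) E (laurentBaseChange E F₀) p

theorem k1ModularG_full_iff (N : ℕ) (p : ℕ) :
    K1ModularG (modularFunctionFieldFull N) A p ↔ K1Modular N A p := Iff.rfl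

variable {F₀}

/-- The image in `ℚ̄((q))` of an element of the function field over `E`. -/
theorem coeffMap_mem_barG (E : IntermediateField ℚ Qb) {y : LaurentSeries E}
    (hy : y ∈ laurentBaseChange E F₀) :
    coeffMap (algebraMap E Qb) y ∈ laurentBaseChange Qb F₀ :=
  coeffMap_mem_laurentBaseChange_hom (algebraMap E Qb) hy

/-- Monotonicity of the function fields in the constant field. -/
theorem exists_mem_of_le {E₁ E : IntermediateField ℚ Qb} (h : E₁ ≤ E) {y : LaurentSeries E₁}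
    (hy : y ∈ laurentBaseChange E₁ F₀) :
    ∃ u ∈ laurentBaseChange E F₀,
      coeffMap (algebraMap E Qb) u = coeffMap (algebraMap E₁ Qb) y := by
  refine ⟨coeffMap (IntermediateField.inclusion h : E₁ →+* E) y,
    coeffMap_mem_laurentBaseChange_hom _ hy, ?_⟩
  rw [coeffMap_coeffMap]
  exact coeffMap_congr (RingHom.ext fun c => rfl) y

variable (F₀)

/-- **Function form of `(K1)` over `ℚ̄`** (up to a constant) from the number-field statement. -/
theorem funAtG_of_k1ModularG {ℓ : ℕ} (hℓ : ℓ.Prime) (hA : A.LiesOverPrime ℓ) {p : ℕ}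
    (hK : K1ModularG F₀ A p) : FunAtG F₀ A p := by
  classical
  intro U W hU hW hred hne hdiv
  obtain ⟨S, hS⟩ := hK
  obtain ⟨E₁, hE₁, h₁⟩ := GaussDescent.exists_descent F₀ hU
  obtain ⟨y₁, hy₁, hy₁U⟩ := h₁ E₁ le_rfl
  obtain ⟨E₂, hE₂, h₂⟩ := GaussDescent.exists_descent F₀ hW
  obtain ⟨y₂, hy₂, hy₂W⟩ := h₂ E₂ le_rfl
  -- the number field
  let E₃ : IntermediateField ℚ Qb := IntermediateField.adjoin ℚ (S : Set Qb)
  have hE₃ : FiniteDimensional ℚ E₃ :=
    IntermediateField.finiteDimensional_adjoin fun x _ =>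
      ((AlgebraicClosure.isAlgebraic ℚ).isAlgebraic x).isIntegral
  let E : IntermediateField ℚ Qb := E₁ ⊔ E₂ ⊔ E₃
  have hE12 : FiniteDimensional ℚ (E₁ ⊔ E₂ : IntermediateField ℚ Qb) :=
    IntermediateField.finiteDimensional_sup E₁ E₂
  have hE : FiniteDimensional ℚ E := IntermediateField.finiteDimensional_sup (E₁ ⊔ E₂) E₃
  have hSE : ∀ s ∈ S, s ∈ E := fun s hs =>
    (le_sup_right : E₃ ≤ E) (IntermediateField.subset_adjoin ℚ _ hs)
  have hDVRE : IsDiscreteValuationRing (OE A E) :=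
    GaussDescent.isDiscreteValuationRing_OE A E hℓ hA
  have hKE := hS E hSE
  -- the series over `E`
  obtain ⟨u, huL, huU⟩ := exists_mem_of_le (F₀ := F₀)
    ((le_sup_left : E₁ ≤ E₁ ⊔ E₂).trans le_sup_left : E₁ ≤ E) hy₁
  obtain ⟨w, hwL, hwW⟩ := exists_mem_of_le (F₀ := F₀)
    ((le_sup_right : E₂ ≤ E₁ ⊔ E₂).trans le_sup_left : E₂ ≤ E) hy₂
  have hy₁U' : coeffMap (algebraMap E₁ Qb) y₁ = coeffMap A.subtype U := hy₁U
  have hy₂W' : coeffMap (algebraMap E₂ Qb) y₂ = coeffMap A.subtype W := hy₂W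
  rw [hy₁U'] at huU
  rw [hy₂W'] at hwW
  obtain ⟨a, hau', haU⟩ := exists_up_eq A E U u huU
  obtain ⟨b, hbw', hbW⟩ := exists_up_eq A E W w hwW
  have hau : GaussDVR.iota (OE A E) E a = u := hau'
  have hbw : GaussDVR.iota (OE A E) E b = w := hbw'
  have hrho : GaussDVR.rho (OE A E) a = GaussDVR.rho (OE A E) b := by
    have h1 := (red_up_eq_iff A E a b).mp (by rw [haU, hbW]; exact hred)
    exact h1
  have hrhoa : GaussDVR.rho (OE A E) a ≠ 0 := by
    intro h0
    have h1 := (red_up_eq_zero_iff A E a).mpr h0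
    rw [haU] at h1
    exact hne h1
  have hrhob : GaussDVR.rho (OE A E) b ≠ 0 := hrho ▸ hrhoa
  have hu0 : u ≠ 0 := by
    rintro rfl
    have : a = 0 := GaussDVR.iota_injective (OE A E) E (by rw [hau, map_zero])
    exact hrhoa (by rw [this, map_zero])
  have hw0 : w ≠ 0 := by
    rintro rfl
    have : b = 0 := GaussDVR.iota_injective (OE A E) E (by rw [hbw, map_zero])
    exact hrhob (by rw [this, map_zero])
  -- the function `g = u / w`
  have hgL : u / w ∈ laurentBaseChange E F₀ := div_mem huL hwL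
  have hgV : u / w ∈ GaussDVR.V (OE A E) E := by
    rw [← hau, ← hbw]
    exact GaussDVR.div_mem (OE A E) E a b hrhob
  have hg1 : GaussDVR.red (OE A E) E ⟨u / w, hgV⟩ = 1 := by
    have h1 := GaussDVR.red_div (OE A E) E a b hrhob
    have h2 : (⟨u / w, hgV⟩ : GaussDVR.V (OE A E) E) =
        ⟨GaussDVR.iota (OE A E) E a / GaussDVR.iota (OE A E) E b,
          GaussDVR.div_mem (OE A E) E a b hrhob⟩ := by
      apply Subtype.ext
      show u / w = GaussDVR.iota (OE A E) E a / GaussDVR.iota (OE A E) E b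
      rw [hau, hbw]
    rw [h2, h1, hrho, div_self hrhob]
  have hgdiv : ∀ v : Place E (laurentBaseChange E F₀),
      (p : ℤ) ∣ v.ord (⟨u / w, hgL⟩ : laurentBaseChange E F₀) := by
    intro v
    obtain ⟨P, hP⟩ := Fermat.Agent.S18.PlaceUp.exists_place_up' E F₀ v
    have huL0 : (⟨u, huL⟩ : laurentBaseChange E F₀) ≠ 0 := fun h => hu0 (congrArg Subtype.val h)
    have hwL0 : (⟨w, hwL⟩ : laurentBaseChange E F₀) ≠ 0 := fun h => hw0 (congrArg Subtype.val h)
    have h1 : (⟨u / w, hgL⟩ : laurentBaseChange E F₀) =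
        ⟨u, huL⟩ * (⟨w, hwL⟩ : laurentBaseChange E F₀)⁻¹ := by
      apply Subtype.ext
      show u / w = u * w⁻¹
      rw [div_eq_mul_inv]
    rw [h1, v.ord_mul huL0 (inv_ne_zero hwL0), v.ord_inv,
      ← hP u huL (coeffMap_mem_barG E huL), ← hP w hwL (coeffMap_mem_barG E hwL)]
    have h2 := hdiv P
    have e1 : (⟨coeffMap (algebraMap E Qb) u, coeffMap_mem_barG E huL⟩ :
        laurentBaseChange Qb F₀) = ⟨coeffMap A.subtype U, hU⟩ := Subtype.ext huU
    have e2 : (⟨coeffMap (algebraMap E Qb) w, coeffMap_mem_barG E hwL⟩ :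
        laurentBaseChange Qb F₀) = ⟨coeffMap A.subtype W, hW⟩ := Subtype.ext hwW
    have e1' : (⟨GaussDescent.up E u, coeffMap_mem_barG E huL⟩ : laurentBaseChange Qb F₀) =
        ⟨coeffMap A.subtype U, hU⟩ := e1
    have e2' : (⟨GaussDescent.up E w, coeffMap_mem_barG E hwL⟩ : laurentBaseChange Qb F₀) =
        ⟨coeffMap A.subtype W, hW⟩ := e2
    rw [e1', e2', ← sub_eq_add_neg]
    exact h2
  -- apply `(K1E)`
  obtain ⟨c, H, hHL, hgH⟩ := hKE (u / w) hgL hgV hg1 hgdiv
  have hc0 : c ≠ 0 := by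
    rintro rfl
    rw [map_zero, zero_mul] at hgH
    exact (div_ne_zero hu0 hw0) hgH
  refine ⟨algebraMap E Qb c, ⟨coeffMap (algebraMap E Qb) H, coeffMap_mem_barG E hHL⟩,
    (map_ne_zero _).mpr hc0, ?_⟩
  apply Subtype.ext
  show coeffMap A.subtype U = algebraMap Qb (LaurentSeries Qb) (algebraMap E Qb c) *
    coeffMap (algebraMap E Qb) H ^ p * coeffMap A.subtype W
  have h3 : u = HahnSeries.C c * H ^ p * w := by
    rw [← hgH, div_mul_cancel₀ u hw0]
  rw [← huU, ← hwW, h3, map_mul, map_mul, map_pow, coeffMap_C_hom, Fermat.Agent.S18.Wiring.C_eq_algebraMap]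

/-- **`ExitD.K1Ord` over `ℚ̄` from the number-field statement** at all prime exponents `p ≠ ℓ`,
given Gauss normalisation. -/
theorem k1Ord_of_k1ModularG {ℓ : ℕ} (hℓ : ℓ.Prime) (hA : A.LiesOverPrime ℓ)
    (hG : Fermat.Agent.S48.ExitD.HasGaussNorm (laurentBaseChange Qb F₀) A)
    (hK : ∀ p : ℕ, p.Prime → p ≠ ℓ → K1ModularG F₀ A p) :
    Fermat.Agent.S48.ExitD.K1Ord F₀ ℓ A :=
  k1Ord_of_funAtG hG fun p hp hpℓ => funAtG_of_k1ModularG F₀ A hℓ hA (hK p hp hpℓ)

end Fermat.Agent.S48.G1.K1Gen
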