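import Fermat.Agent.S30.E4.K1Prime
import Fermat.Agent.S30.E4.FunAt
import Fermat.Agent.S48.ExitDPlaces

/-!
# S48 / G1, AREA K (helper46): the Kummer statement `(K1)` for a GENERIC field, prime exponents

`F₀` an arbitrary intermediate field of `ℚ((q)) / ℚ`, `Fb = laurentBaseChange ℚ̄ F₀`.  Generic twins
of the `Γ₀(N)`-typed reductions of `S30/E4/{FunAt,K1Prime,K1Adapt}`, in the vocabulary of the
landed `S48/ExitD.lean` / `S48/ExitDPlaces.lean` (`ExitD.K1Ord`, `ExitD.HasGaussNorm`; nothing is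
re-defined):

* `K1pOrd F₀ ℓ A`  : `ExitD.K1Ord F₀ ℓ A` restricted to prime exponents `p ≠ ℓ`;
* `FunAtG F₀ A p`  : the function form up to a constant at the exponent `p`
  (= `S30.E4.FunAt` with `modularFunctionFieldBar N` replaced by `laurentBaseChange ℚ̄ F₀`);
* `k1Ord_of_k1pOrd` : `ExitD.HasGaussNorm Fb A → K1pOrd F₀ ℓ A → ExitD.K1Ord F₀ ℓ A`
  (induction on the exponent);
* `k1pOrd_of_funAtG`, `k1Ord_of_funAtG` : absorbing the constant (a `p`-th power in `ℚ̄`).

Nothing here depends on a level.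
-/

set_option autoImplicit false

open ModularCurve AlgebraicCurve Polynomial

namespace Fermat.Agent.S48.G1.K1Gen

open Fermat.Agent.S30 Fermat.Agent.S30.E4 Fermat.Agent.S48

local notation "Qb" => AlgebraicClosure ℚ

variable (F₀ : IntermediateField ℚ (LaurentSeries ℚ))

local notation "Fb" => laurentBaseChange Qb F₀

/-- **(K1)** for prime exponents `p ≠ ℓ`. -/
def K1pOrd (ℓ : ℕ) (A : ValuationSubring Qb) : Prop :=
  ∀ p : ℕ, p.Prime → p ≠ ℓ → ∀ (U W : LaurentSeries A)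
    (hU : Congr.incl A U ∈ Fb) (hW : Congr.incl A W ∈ Fb),
    Congr.red A U = Congr.red A W → Congr.red A U ≠ 0 →
    (∀ P : Place Qb Fb, (p : ℤ) ∣ P.ord (⟨_, hU⟩ : Fb) - P.ord (⟨_, hW⟩ : Fb)) →
    ∃ H : Fb, Congr.incl A U = (H : LaurentSeries Qb) ^ p * Congr.incl A W

/-- The function form of the Kummer statement at the exponent `p`, up to a constant. -/
def FunAtG (A : ValuationSubring Qb) (p : ℕ) : Prop :=
  ∀ (U W : LaurentSeries A)
    (hU : coeffMap A.subtype U ∈ Fb) (hW : coeffMap A.subtype W ∈ Fb),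
    coeffMap (IsLocalRing.residue A) U = coeffMap (IsLocalRing.residue A) W →
    coeffMap (IsLocalRing.residue A) U ≠ 0 →
    (∀ P : Place Qb Fb,
      (p : ℤ) ∣ P.ord (⟨coeffMap A.subtype U, hU⟩ : Fb) - P.ord (⟨coeffMap A.subtype W, hW⟩ : Fb)) →
    ∃ (c : Qb) (H : Fb), c ≠ 0 ∧
      (⟨coeffMap A.subtype U, hU⟩ : Fb) =
        algebraMap Qb Fb c * H ^ p * (⟨coeffMap A.subtype W, hW⟩ : Fb)

/-! ### Compatibility with the `Γ₀(N)` statements -/

theorem funAtG_full_iff (N : ℕ) (A : ValuationSubring Qb) (p : ℕ) :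
    FunAtG (modularFunctionFieldFull N) A p ↔ E4.FunAt N A p := Iff.rfl

theorem k1Ord_full_iff (N ℓ : ℕ) (A : ValuationSubring Qb) :
    ExitD.K1Ord (modularFunctionFieldFull N) ℓ A ↔ E4.K1 N ℓ A := Iff.rfl

/-! ### Auxiliary facts -/

variable {F₀}

/-- The order of a nonzero constant at a place is `0`. -/
theorem ord_const_eq_zero (P : Place Qb Fb) {a : Qb} (ha : a ≠ 0) :
    P.ord (algebraMap Qb Fb a) = 0 := by
  have h1 : algebraMap Qb Fb a ∈ P.toValuationSubring := P.algebraMap_mem' a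
  have h2 : algebraMap Qb Fb a⁻¹ ∈ P.toValuationSubring := P.algebraMap_mem' a⁻¹
  have hu : IsUnit (⟨algebraMap Qb Fb a, h1⟩ : P.toValuationSubring) := by
    refine IsUnit.of_mul_eq_one (⟨algebraMap Qb Fb a⁻¹, h2⟩ : P.toValuationSubring) ?_
    apply Subtype.ext
    change algebraMap Qb Fb a * algebraMap Qb Fb a⁻¹ = 1
    rw [← map_mul, mul_inv_cancel₀ ha, map_one]
  exact P.ord_coe_unit hu.unit

theorem coe_algebraMap (a : Qb) :
    ((algebraMap Qb Fb a : Fb) : LaurentSeries Qb) = HahnSeries.single 0 a :=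
  algebraMap_laurentSeries_eq_single Qb a

theorem mk_ne_zero_of_red_ne_zero (A : ValuationSubring Qb) {P : LaurentSeries A}
    (hPm : Congr.incl A P ∈ Fb) (hP : Congr.red A P ≠ 0) : (⟨_, hPm⟩ : Fb) ≠ 0 := by
  intro h
  apply hP
  have h1 : Congr.incl A P = 0 := congrArg Subtype.val h
  have h2 : P = 0 := Congr.incl_injective A (by rw [h1, map_zero])
  rw [h2, map_zero]

/-! ### Reduction to prime exponents -/

/-- **Reduction of (K1) to prime exponents**, generic field. -/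
theorem k1Ord_of_k1pOrd {ℓ : ℕ} {A : ValuationSubring Qb} (hG : ExitD.HasGaussNorm Fb A)
    (h : K1pOrd F₀ ℓ A) : ExitD.K1Ord F₀ ℓ A := by
  intro m
  induction m using Nat.strong_induction_on with
  | _ m ih =>
  intro hℓm U W hU hW hred hne hdiv
  have hneW : Congr.red A W ≠ 0 := hred ▸ hne
  have hU0 : (⟨_, hU⟩ : Fb) ≠ 0 := mk_ne_zero_of_red_ne_zero A hU hne
  have hW0 : (⟨_, hW⟩ : Fb) ≠ 0 := mk_ne_zero_of_red_ne_zero A hW hneW
  have hm0 : m ≠ 0 := fun h0 => hℓm (h0 ▸ dvd_zero ℓ)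
  rcases eq_or_ne m 1 with rfl | hm1
  · refine ⟨(⟨_, hU⟩ : Fb) / ⟨_, hW⟩, ?_⟩
    have h1 : (⟨_, hU⟩ : Fb) = ((⟨_, hU⟩ : Fb) / ⟨_, hW⟩) ^ 1 * ⟨_, hW⟩ := by
      rw [pow_one, div_mul_cancel₀ _ hW0]
    exact congrArg Subtype.val h1
  · obtain ⟨p, hp, m', rfl⟩ := Nat.exists_prime_and_dvd hm1
    have hpℓ : p ≠ ℓ := fun e => hℓm (e ▸ dvd_mul_right _ _)
    have hℓm' : ¬ ℓ ∣ m' := fun e => hℓm (dvd_mul_of_dvd_right e _)
    have hm'0 : m' ≠ 0 := fun h0 => hm0 (by rw [h0, mul_zero])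
    have hp1 : 1 ≤ p := hp.one_lt.le
    have hm'lt : m' < p * m' := by
      have h2 := hp.two_le
      have h3 : 0 < m' := Nat.pos_of_ne_zero hm'0
      nlinarith
    obtain ⟨H, hH⟩ := h p hp hpℓ U W hU hW hred hne (fun P =>
      dvd_trans (by push_cast; exact dvd_mul_right _ _) (hdiv P))
    have hHe : (⟨_, hU⟩ : Fb) = H ^ p * ⟨_, hW⟩ := Subtype.ext hH
    have hH0 : H ≠ 0 := by
      rintro rfl
      rw [zero_pow hp.ne_zero, zero_mul] at hHe
      exact hU0 hHe
    -- `m' ∣ div H`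
    have hdivH : ∀ P : Place Qb Fb, (m' : ℤ) ∣ P.ord H := fun P => by
      have h1 : P.ord (⟨_, hU⟩ : Fb) - P.ord (⟨_, hW⟩ : Fb) = p * P.ord H := by
        rw [hHe, P.ord_mul (pow_ne_zero _ hH0) hW0]
        have h2 := P.ord_zpow H (p : ℤ)
        rw [zpow_natCast] at h2
        rw [h2]; ring
      have h3 := hdiv P
      rw [h1] at h3
      push_cast at h3
      exact (mul_dvd_mul_iff_left (by exact_mod_cast hp.ne_zero)).1 h3
    -- Gauss normalisation of `H`
    obtain ⟨c, P, Q, hPm, hQm, hc, hP, hQ, hHPQ⟩ := hG H hH0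
    have hP0 : (⟨_, hPm⟩ : Fb) ≠ 0 := mk_ne_zero_of_red_ne_zero A hPm hP
    have hQ0 : (⟨_, hQm⟩ : Fb) ≠ 0 := mk_ne_zero_of_red_ne_zero A hQm hQ
    -- `U Q^p = c^p P^p W`
    have hFb : (⟨_, hU⟩ : Fb) * (⟨_, hQm⟩ : Fb) ^ p =
        algebraMap Qb Fb (c ^ p) * ((⟨_, hPm⟩ : Fb) ^ p * ⟨_, hW⟩) := by
      rw [hHe, map_pow]
      calc H ^ p * (⟨_, hW⟩ : Fb) * (⟨_, hQm⟩ : Fb) ^ p
          = (H * ⟨_, hQm⟩) ^ p * ⟨_, hW⟩ := by ring
        _ = _ := by rw [hHPQ]; ring
    have hXY : Congr.incl A (U * Q ^ p) =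
        HahnSeries.single 0 (c ^ p) * Congr.incl A (P ^ p * W) := by
      have h1 : Congr.incl A U * Congr.incl A Q ^ p =
          ((algebraMap Qb Fb (c ^ p) : Fb) : LaurentSeries Qb) *
            (Congr.incl A P ^ p * Congr.incl A W) := congrArg Subtype.val hFb
      rw [coe_algebraMap] at h1
      rw [(Congr.incl A).map_mul, (Congr.incl A).map_pow, (Congr.incl A).map_mul,
        (Congr.incl A).map_pow]
      exact h1
    have hredX : Congr.red A (U * Q ^ p) ≠ 0 := by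
      rw [(Congr.red A).map_mul, (Congr.red A).map_pow]
      exact mul_ne_zero hne (pow_ne_zero _ hQ)
    have hredY : Congr.red A (P ^ p * W) ≠ 0 := by
      rw [(Congr.red A).map_mul, (Congr.red A).map_pow]
      exact mul_ne_zero (pow_ne_zero _ hP) hneW
    have hcp0 : c ^ p ≠ 0 := pow_ne_zero _ hc
    have hcp : c ^ p ∈ A := scalar_mem_of_incl_eq A hredY hXY
    have hcpi : (c ^ p)⁻¹ ∈ A := by
      refine scalar_mem_of_incl_eq A hredX (X := P ^ p * W) (Y := U * Q ^ p) ?_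
      rw [hXY, ← mul_assoc, HahnSeries.single_mul_single, zero_add, inv_mul_cancel₀ hcp0]
      exact (one_mul _).symm
    -- `c` is a unit of `A`
    have hpow_succ : c ^ p = c ^ (p - 1) * c := by
      rw [← pow_succ, Nat.sub_add_cancel hp1]
    have hcA : c ∈ A := by
      rcases A.mem_or_inv_mem c with h1 | h1
      · exact h1
      · have h2 : c = c ^ p * (c⁻¹) ^ (p - 1) := by
          rw [hpow_succ, inv_pow]
          field_simp
        rw [h2]
        exact A.mul_mem _ _ hcp (pow_mem h1 _)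
    have hciA : c⁻¹ ∈ A := by
      have h2 : c⁻¹ = (c ^ p)⁻¹ * c ^ (p - 1) := by
        rw [hpow_succ]
        field_simp
      rw [h2]
      exact A.mul_mem _ _ hcpi (pow_mem hcA _)
    set cA : A := ⟨c, hcA⟩ with hcAdef
    -- the integral identity `U Q^p = cA^p P^p W` and its reduction
    have hint : U * Q ^ p = HahnSeries.C (cA ^ p) * (P ^ p * W) := by
      apply Congr.incl_injective A
      rw [hXY, (Congr.incl A).map_mul (HahnSeries.C (cA ^ p)), incl_C]
      rfl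
    set cb : LaurentSeries (IsLocalRing.ResidueField A) :=
      HahnSeries.C (IsLocalRing.residue A cA) with hcb
    have hredI : Congr.red A U * Congr.red A Q ^ p =
        cb ^ p * (Congr.red A P ^ p * Congr.red A W) := by
      have h1 := congrArg (Congr.red A) hint
      rw [(Congr.red A).map_mul, (Congr.red A).map_pow,
        (Congr.red A).map_mul (HahnSeries.C (cA ^ p)), red_C, (Congr.red A).map_mul,
        (Congr.red A).map_pow, map_pow, map_pow] at h1
      exact h1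
    have hpow : Congr.red A Q ^ p = (cb * Congr.red A P) ^ p := by
      have h1 : Congr.red A W * Congr.red A Q ^ p =
          Congr.red A W * (cb * Congr.red A P) ^ p := by
        rw [← hred, hredI, hred]; ring
      exact mul_left_cancel₀ hneW h1
    have hzp : (cb * Congr.red A P / Congr.red A Q) ^ p = 1 := by
      rw [div_pow, ← hpow, div_self (pow_ne_zero _ hQ)]
    obtain ⟨a, ha, hz⟩ := exists_root_of_pow_eq_one A hp.pos _ hzp
    have hcbP : cb * Congr.red A P =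
        HahnSeries.C (IsLocalRing.residue A a) * Congr.red A Q := (div_eq_iff hQ).1 hz
    -- the inverse of `a`
    set ai : A := a ^ (p - 1) with hai
    have haai : a * ai = 1 := by
      apply Subtype.ext
      show (a : Qb) * (a : Qb) ^ (p - 1) = 1
      rw [← pow_succ', Nat.sub_add_cancel hp1, ha]
    have hai0 : ((ai : A) : Qb) ≠ 0 := by
      intro h0
      have h1 := congrArg (Subtype.val) haai
      have h2 : (a : Qb) * ((ai : A) : Qb) = 1 := h1
      rw [h0, mul_zero] at h2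
      exact zero_ne_one h2
    set b : A := ai * cA with hb
    set U'' : LaurentSeries A := HahnSeries.C b * P with hU''
    have hredU'' : Congr.red A U'' = Congr.red A Q := by
      rw [hU'', (Congr.red A).map_mul, red_C, hb, map_mul, map_mul, mul_assoc, ← hcb, hcbP,
        ← mul_assoc, ← map_mul, ← map_mul, mul_comm ai a, haai, map_one, map_one, one_mul]
    have hinclU'' : Congr.incl A U'' =
        ((algebraMap Qb Fb ((b : A) : Qb) * (⟨_, hPm⟩ : Fb) : Fb) : LaurentSeries Qb) := by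
      rw [hU'', (Congr.incl A).map_mul, incl_C]
      show _ = ((algebraMap Qb Fb ((b : A) : Qb) : Fb) : LaurentSeries Qb) * _
      rw [coe_algebraMap]
    have hU''m : Congr.incl A U'' ∈ Fb := by
      rw [hinclU'']
      exact (algebraMap Qb Fb ((b : A) : Qb) * (⟨_, hPm⟩ : Fb)).2
    set H'' : Fb := algebraMap Qb Fb ((ai : A) : Qb) * H with hH''
    have hH''0 : H'' ≠ 0 :=
      mul_ne_zero ((map_ne_zero (algebraMap Qb Fb)).2 hai0) hH0
    have hH''Q : H'' * (⟨_, hQm⟩ : Fb) = ⟨_, hU''m⟩ := by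
      have h1 : H'' * (⟨_, hQm⟩ : Fb) =
          algebraMap Qb Fb ((b : A) : Qb) * (⟨_, hPm⟩ : Fb) := by
        rw [hH'', mul_assoc, hHPQ, ← mul_assoc, ← map_mul]
        rfl
      refine Subtype.ext ?_
      show ((H'' * (⟨_, hQm⟩ : Fb) : Fb) : LaurentSeries Qb) = Congr.incl A U''
      rw [hinclU'', h1]
    have hdiv'' : ∀ Pl : Place Qb Fb,
        (m' : ℤ) ∣ Pl.ord (⟨_, hU''m⟩ : Fb) - Pl.ord (⟨_, hQm⟩ : Fb) := fun Pl => by
      rw [← hH''Q, Pl.ord_mul hH''0 hQ0, add_sub_cancel_right, hH'',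
        Pl.ord_mul ((map_ne_zero (algebraMap Qb Fb)).2 hai0) hH0, ord_const_eq_zero Pl hai0,
        zero_add]
      exact hdivH Pl
    obtain ⟨G, hGe⟩ := ih m' hm'lt hℓm' U'' Q hU''m hQm hredU'' (hredU'' ▸ hQ) hdiv''
    have hH''G : H'' = G ^ m' := by
      have h1 : H'' * (⟨_, hQm⟩ : Fb) = G ^ m' * (⟨_, hQm⟩ : Fb) := by
        rw [hH''Q]
        exact Subtype.ext hGe
      exact mul_right_cancel₀ hQ0 h1
    have hHG : H = algebraMap Qb Fb (a : Qb) * G ^ m' := by
      rw [← hH''G, hH'', ← mul_assoc, ← map_mul]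
      have h1 : (a : Qb) * ((ai : A) : Qb) = 1 := congrArg Subtype.val haai
      rw [h1, map_one, one_mul]
    have hHp : H ^ p = G ^ (p * m') := by
      rw [hHG, mul_pow, ← map_pow, ha, map_one, one_mul, ← pow_mul, mul_comm m' p]
    refine ⟨G, ?_⟩
    rw [hH]
    have h1 : ((H ^ p : Fb) : LaurentSeries Qb) = ((G ^ (p * m') : Fb) : LaurentSeries Qb) :=
      congrArg Subtype.val hHp
    exact congrArg (· * Congr.incl A W) h1

/-! ### Absorbing the constant -/

/-- The function form up to a constant gives the exact `p`-th power form: the constant has a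
`p`-th root in `ℚ̄`. -/
theorem k1pOrd_of_funAtG {ℓ : ℕ} {A : ValuationSubring Qb}
    (h : ∀ p : ℕ, p.Prime → p ≠ ℓ → FunAtG F₀ A p) : K1pOrd F₀ ℓ A := by
  intro p hp hpℓ U W hU hW hred hne hdiv
  obtain ⟨c, H, -, hEq⟩ := h p hp hpℓ U W hU hW hred hne hdiv
  obtain ⟨d, hd⟩ := IsAlgClosed.exists_pow_nat_eq c hp.pos
  refine ⟨algebraMap Qb Fb d * H, ?_⟩
  have h1 : (⟨coeffMap A.subtype U, hU⟩ : Fb) =
      (algebraMap Qb Fb d * H) ^ p * (⟨coeffMap A.subtype W, hW⟩ : Fb) := by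
    rw [hEq, mul_pow, ← map_pow, hd]
  exact congrArg Subtype.val h1

/-- `ExitD.K1Ord` from the function form up to a constant at all prime exponents `p ≠ ℓ`. -/
theorem k1Ord_of_funAtG {ℓ : ℕ} {A : ValuationSubring Qb} (hG : ExitD.HasGaussNorm Fb A)
    (h : ∀ p : ℕ, p.Prime → p ≠ ℓ → FunAtG F₀ A p) : ExitD.K1Ord F₀ ℓ A :=
  k1Ord_of_k1pOrd hG (k1pOrd_of_funAtG h)

end Fermat.Agent.S48.G1.K1Gen
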